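import Fermat.Agent.VanishingSums.Split
import Mathlib.Data.Multiset.Bind

/-!
# Two primes

When `n` has at most two prime divisors every vanishing sum of `n`-th roots of unity consists of
translates of the full sets of `p`-th roots, `p` a prime divisor of `n`.
-/

set_option autoImplicit false

noncomputable section

open Finset

namespace FA.VanishingSums

/-- The union of the translates described by `c`. -/
def translates (c : Multiset (ℂ × ℕ)) : Multiset ℂ :=
  c.bind fun x => (Polynomial.nthRoots x.2 (1 : ℂ)).map (x.1 * ·)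

/-- Made of translates. -/
def Decomp (n : ℕ) (A : Multiset ℂ) : Prop :=
  ∃ c : Multiset (ℂ × ℕ), (∀ x ∈ c, x.1 ^ n = 1 ∧ x.2.Prime ∧ x.2 ∣ n) ∧ A = translates c

theorem Decomp.zero (n : ℕ) : Decomp n 0 := ⟨0, by simp, by simp [translates]⟩

theorem Decomp.add {n : ℕ} {A B : Multiset ℂ} (hA : Decomp n A) (hB : Decomp n B) :
    Decomp n (A + B) := by
  obtain ⟨c, hc, rfl⟩ := hA
  obtain ⟨d, hd, rfl⟩ := hB
  exact ⟨c + d, fun x hx => (Multiset.mem_add.1 hx).elim (hc x) (hd x), by simp [translates]⟩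

theorem Decomp.nsmul {n : ℕ} {A : Multiset ℂ} (hA : Decomp n A) (k : ℕ) : Decomp n (k • A) := by
  induction k with
  | zero => rw [zero_smul]; exact Decomp.zero n
  | succ k ih => rw [succ_nsmul]; exact ih.add hA

theorem Decomp.sum {n : ℕ} {ι : Type*} (s : Finset ι) {A : ι → Multiset ℂ}
    (hA : ∀ i ∈ s, Decomp n (A i)) : Decomp n (∑ i ∈ s, A i) :=
  Finset.sum_induction _ _ (fun _ _ => Decomp.add) (Decomp.zero n) hA

/-- A translate. -/
theorem Decomp.translate {m n : ℕ} (hmn : m ∣ n) {u : ℂ} (hu : u ^ n = 1) {A : Multiset ℂ}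
    (hA : Decomp m A) : Decomp n (A.map (u * ·)) := by
  obtain ⟨c, hc, rfl⟩ := hA
  refine ⟨c.map fun x => (u * x.1, x.2), fun x hx => ?_, ?_⟩
  · obtain ⟨y, hy, rfl⟩ := Multiset.mem_map.1 hx
    obtain ⟨h1, h2, h3⟩ := hc y hy
    obtain ⟨k, rfl⟩ := hmn
    exact ⟨by rw [mul_pow, hu, one_mul, pow_mul, h1, one_pow], h2, h3.mul_right k⟩
  · simp only [translates, Multiset.map_bind, Multiset.bind_map, Multiset.map_map,
      Function.comp_def, mul_assoc]

/-- The full set. -/
theorem decomp_roots {n q : ℕ} (hq : q.Prime) (hqn : q ∣ n) :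
    Decomp n (Polynomial.nthRoots q (1 : ℂ)) :=
  ⟨{(1, q)}, by simp [hq, hqn], by simp [translates]⟩

/-- Taking out full sets. -/
theorem exists_reduced {q : ℕ} (hq : 0 < q) {P : Multiset ℂ} (hP : IsRoots q P) :
    ∃ (R : Multiset ℂ) (k : ℕ), IsRoots q R ∧ (∃ z, z ^ q = 1 ∧ z ∉ R) ∧
      P = R + k • Polynomial.nthRoots q (1 : ℂ) := by
  classical
  induction h : Multiset.card P using Nat.strong_induction_on generalizing P with
  | _ N ih =>
  by_cases hall : ∀ z, z ^ q = 1 → z ∈ P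
  · have hζ := Complex.isPrimitiveRoot_exp q hq.ne'
    have hle : Polynomial.nthRoots q (1 : ℂ) ≤ P :=
      (Multiset.le_iff_subset hζ.nthRoots_one_nodup).2 fun z hz =>
        hall z ((Polynomial.mem_nthRoots hq).1 hz)
    obtain ⟨P', rfl⟩ := Multiset.le_iff_exists_add.1 hle
    have hlt : Multiset.card P' < N := by
      rw [← h, Multiset.card_add, hζ.card_nthRoots_one]
      omega
    obtain ⟨R, k, hR, hz, rfl⟩ :=
      ih _ hlt (fun z hz => hP z (Multiset.mem_add.2 (Or.inr hz))) rfl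
    exact ⟨R, k + 1, hR, hz, by rw [succ_nsmul]; abel⟩
  · push Not at hall
    exact ⟨P, 0, hP, hall, by simp⟩

/-- Reduced sums with one value are equal. -/
theorem reduced_unique {q : ℕ} (hq : q.Prime) {R R' : Multiset ℂ} (hR : IsRoots q R)
    (hR' : IsRoots q R') (hz : ∃ z, z ^ q = 1 ∧ z ∉ R) (hz' : ∃ z, z ^ q = 1 ∧ z ∉ R')
    (hsum : R.sum = R'.sum) : R = R' := by
  obtain ⟨C⟩ := exists_cut (m := 1) one_pos hq
  rw [← mul_one q] at hR hR'
  obtain ⟨X, hX, rfl⟩ := C.exists_parts hR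
  obtain ⟨Y, hY, rfl⟩ := C.exists_parts hR'
  obtain ⟨-, hconst⟩ := C.parts_diff hq rfl one_pos hX hY hsum
  have hrep : ∀ {T : Multiset ℂ}, IsRoots 1 T → T = Multiset.replicate (Multiset.card T) 1 :=
    fun hT => Multiset.eq_replicate_card.2 fun z hz => by simpa using hT z hz
  have hmiss : ∀ {T : Fin q → Multiset ℂ}, (∀ j, IsRoots 1 (T j)) →
      (∃ z, z ^ q = 1 ∧ z ∉ glue C.ω T) → ∃ j, T j = 0 := by
    rintro T hT ⟨z, hz1, hz2⟩
    obtain ⟨j, y, hy, rfl⟩ := C.split z (by rwa [mul_one])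
    rw [pow_one] at hy
    subst hy
    refine ⟨j, Multiset.eq_zero_of_forall_notMem fun w hw => hz2 ?_⟩
    rw [glue, Multiset.mem_sum]
    exact ⟨j, mem_univ j, Multiset.mem_map.2 ⟨w, hw, by rw [show w = 1 by simpa using hT j w hw]⟩⟩
  obtain ⟨i, hi⟩ := hmiss hX hz
  obtain ⟨j, hj⟩ := hmiss hY hz'
  have key : ∀ a, (X a).sum - (Y a).sum =
      (((Multiset.card (X a) : ℤ) - Multiset.card (Y a) : ℤ) : ℂ) := fun a => by
    conv_lhs => rw [hrep (hX a), hrep (hY a)]
    simp
  refine congrArg _ (funext fun a => ?_)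
  have h1 := hconst a i
  have h2 := hconst a j
  rw [key, key] at h1 h2
  have e1 := Int.cast_inj.1 h1
  have e2 := Int.cast_inj.1 h2
  rw [hi, Multiset.card_zero] at e1
  rw [hj, Multiset.card_zero] at e2
  rw [hrep (hX a), hrep (hY a), show Multiset.card (X a) = Multiset.card (Y a) by omega]

/-- A constant family. -/
theorem decomp_const {n m p : ℕ} (C : Cut n m p) (hp : p.Prime) (hpn : p ∣ n) (hmn : m ∣ n)
    (hpm : ¬ p ∣ m) {R : Multiset ℂ} (hR : IsRoots m R) :
    Decomp n (glue C.ω fun _ : Fin p => R) := by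
  refine ⟨R.map fun z => (z, p), fun x hx => ?_, ?_⟩
  · obtain ⟨z, hz, rfl⟩ := Multiset.mem_map.1 hx
    obtain ⟨k, rfl⟩ := hmn
    exact ⟨by rw [pow_mul, hR z hz, one_pow], hp, hpn⟩
  · rw [translates, Multiset.bind_map]
    simp only [C.full hpm, Multiset.map_map, Function.comp_def]
    rw [Multiset.bind_map_comm, glue]
    simp only [mul_comm]
    rfl

/-- **Vanishing sums for two primes.** -/
theorem decomp_of_two_primes : ∀ n : ℕ, 0 < n → n.primeFactors.card ≤ 2 →
    ∀ A : Multiset ℂ, IsRoots n A → A.sum = 0 → Decomp n A := by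
  intro n
  induction n using Nat.strong_induction_on with
  | _ n ih =>
  intro hn hcard A hA h0
  rcases eq_or_ne n 1 with rfl | hn1
  · have hrep : A = Multiset.replicate (Multiset.card A) 1 :=
      Multiset.eq_replicate_card.2 fun z hz => by simpa using hA z hz
    rw [hrep] at h0
    rw [show A = 0 from Multiset.card_eq_zero.1 (by simpa using h0)]
    exact Decomp.zero 1
  obtain ⟨p, hp, hpn, hsq⟩ : ∃ p : ℕ, p.Prime ∧ p ∣ n ∧
      (p * p ∣ n ∨ ∀ q : ℕ, q.Prime → ¬ q * q ∣ n) := by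
    by_cases h : ∃ q : ℕ, q.Prime ∧ q * q ∣ n
    · obtain ⟨q, hq, hqn⟩ := h
      exact ⟨q, hq, dvd_trans (dvd_mul_right q q) hqn, Or.inl hqn⟩
    · push Not at h
      obtain ⟨q, hq, hqn⟩ := Nat.exists_prime_and_dvd hn1
      exact ⟨q, hq, hqn, Or.inr h⟩
  obtain ⟨m, rfl⟩ := hpn
  have hm : 0 < m := Nat.pos_of_mul_pos_left hn
  obtain ⟨C⟩ := exists_cut hm hp
  obtain ⟨P, hP, rfl⟩ := C.exists_parts hA
  have hzero : IsRoots m (0 : Multiset ℂ) := fun z hz => absurd hz (Multiset.notMem_zero z)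
  obtain ⟨hsame, hconst⟩ := C.parts_diff hp rfl hm hP (Q := fun _ => 0) (fun _ => hzero)
    (by simpa [glue] using h0)
  by_cases hpm : p ∣ m
  · refine Decomp.sum _ fun j _ => Decomp.translate (dvd_mul_left m p)
      (by rw [pow_right_comm, C.root, one_pow]) ?_
    exact ih m (lt_mul_of_one_lt_left hm hp.one_lt) hm ((card_le_card
      (Nat.primeFactors_mono (dvd_mul_left m p) hn.ne')).trans hcard) (P j) (hP j)
      (by simpa using hsame hpm j)
  have hnsq := hsq.resolve_left fun h => hpm ((Nat.mul_dvd_mul_iff_left hp.pos).1 h)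
  simp only [Multiset.sum_zero, sub_zero] at hconst
  rcases eq_or_ne m 1 with rfl | hm1
  · have hP0 : ∀ j, P j = P ⟨0, hp.pos⟩ := fun j => by
      have hr : ∀ i, P i = Multiset.replicate (Multiset.card (P i)) 1 := fun i =>
        Multiset.eq_replicate_card.2 fun z hz => by simpa using hP i z hz
      have h := hconst j ⟨0, hp.pos⟩
      rw [hr j, hr ⟨0, hp.pos⟩] at h ⊢
      simp only [Multiset.sum_replicate, nsmul_one, Nat.cast_inj] at h
      rw [h]
    rw [show P = fun _ => P ⟨0, hp.pos⟩ from funext hP0]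
    exact decomp_const C hp (dvd_mul_right p 1) (dvd_mul_left 1 p) hpm (hP _)
  obtain ⟨q, hq, k, hk⟩ := Nat.exists_prime_and_dvd hm1
  obtain rfl : q = m := by
    by_contra hne
    obtain ⟨r, hr, hrk⟩ := Nat.exists_prime_and_dvd (fun h : k = 1 => hne (by rw [hk, h, mul_one]))
    subst hk
    have hrp : r ≠ p := fun e => hpm (e ▸ hrk.mul_left q)
    have hrq : r ≠ q := fun e => hnsq q hq
      (by rw [mul_left_comm]; exact mul_dvd_mul_left q ((e ▸ hrk).mul_left p))
    have hqp : q ≠ p := fun e => hpm (e ▸ dvd_mul_right q k)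
    have hsub : ({r, p, q} : Finset ℕ) ⊆ (p * (q * k)).primeFactors := by
      intro x hx
      simp only [mem_insert, mem_singleton] at hx
      rcases hx with rfl | rfl | rfl
      · exact Nat.mem_primeFactors.2 ⟨hr, (hrk.mul_left q).mul_left p, hn.ne'⟩
      · exact Nat.mem_primeFactors.2 ⟨hp, dvd_mul_right _ _, hn.ne'⟩
      · exact Nat.mem_primeFactors.2 ⟨hq, (dvd_mul_right _ k).mul_left p, hn.ne'⟩
    have h3 := (card_le_card hsub).trans hcard
    rw [card_insert_of_notMem (by simp [hrp, hrq]), card_pair hqp.symm] at h3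
    omega
  choose R k hR hmiss hPR using fun j => exists_reduced hq.pos (hP j)
  have hfull : (Polynomial.nthRoots q (1 : ℂ)).sum = 0 := by
    have hζ := Complex.isPrimitiveRoot_exp q hq.ne_zero
    rw [hζ.nthRoots_eq (one_pow q)]
    simp only [mul_one, ← Finset.range_val]
    exact hζ.geom_sum_eq_zero hq.one_lt
  have hR0 : ∀ j, R j = R ⟨0, hp.pos⟩ := fun j => by
    refine reduced_unique hq (hR j) (hR _) (hmiss j) (hmiss _) ?_
    have h := hconst j ⟨0, hp.pos⟩
    rw [hPR j, hPR ⟨0, hp.pos⟩] at h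
    simpa [Multiset.sum_nsmul, hfull] using h
  have hsplit : glue C.ω P = glue C.ω (fun _ : Fin p => R ⟨0, hp.pos⟩) +
      ∑ j, (k j • Polynomial.nthRoots q (1 : ℂ)).map (C.ω ^ (j : ℕ) * ·) := by
    rw [glue, glue, ← sum_add_distrib]
    refine Fintype.sum_congr _ _ fun j => ?_
    rw [← Multiset.map_add, ← hR0 j, ← hPR j]
  rw [hsplit]
  exact (decomp_const C hp (dvd_mul_right p q) (dvd_mul_left q p) hpm (hR _)).add
    (Decomp.sum _ fun j _ => Decomp.translate (dvd_mul_left q p)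
      (by rw [pow_right_comm, C.root, one_pow])
      ((decomp_roots hq dvd_rfl).nsmul _))

end FA.VanishingSums

end
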