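import Fermat.Agent.VanishingSums.Split
import Mathlib.NumberTheory.FrobeniusNumber

/-!
# The theorem of Lam and Leung

Two sums of `n`-th roots of unity with one value, the second with `β < p₁` terms, differ in length
by a combination of the primes of `n` unless the first has at least `(p₁ - β) (p₂ - 1)` terms;
`p₁` is the least prime of `n` and `p₂` a bound for the others.
-/

set_option autoImplicit false

noncomputable section

open Finset

namespace FA.VanishingSums

/-- The natural combinations of the prime divisors. -/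
def primeComb (n : ℕ) : AddSubmonoid ℕ := AddSubmonoid.closure (n.primeFactors : Set ℕ)

theorem primeComb_mono {m n : ℕ} (hn : n ≠ 0) (h : m ∣ n) {s : ℕ} (hs : s ∈ primeComb m) :
    s ∈ primeComb n :=
  AddSubmonoid.closure_mono (coe_subset.2 (Nat.primeFactors_mono h hn)) hs

theorem prime_mem_primeComb {p n : ℕ} (hp : p.Prime) (hn : n ≠ 0) (h : p ∣ n) (w : ℕ) :
    p * w ∈ primeComb n := by
  rw [mul_comm, ← smul_eq_mul]
  exact AddSubmonoid.nsmul_mem _ (AddSubmonoid.subset_closure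
    (mem_coe.2 (Nat.mem_primeFactors.2 ⟨hp, h, hn⟩))) w

/-- The bound, the parts being short. -/
theorem bound_short {p₁ p₂ p : ℕ} {β e w x W : ℕ} (hle : p₁ ≤ p₂) (hp : p₂ ≤ p) {βi : ℕ}
    (he : β = βi + e) (hw : βi + w < p₁) (hx : (p₁ - (βi + w)) * (p₂ - 1) ≤ x)
    (hW : x + (p - 1 - e) * w ≤ W) (hβ : β < p₁) : (p₁ - β) * (p₂ - 1) ≤ W := by
  subst he
  obtain ⟨c, rfl⟩ : ∃ c, p₂ = c + 1 := ⟨p₂ - 1, by omega⟩
  obtain ⟨d, rfl⟩ : ∃ d, p = c + 1 + d := ⟨p - (c + 1), by omega⟩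
  rw [Nat.add_sub_cancel] at hx ⊢
  have h1 : ((p₁ - (βi + e) : ℕ) : ℤ) = (p₁ : ℤ) - βi - e := by omega
  have h2 : ((p₁ - (βi + w) : ℕ) : ℤ) = (p₁ : ℤ) - βi - w := by omega
  have h3 : ((c + 1 + d - 1 - e : ℕ) : ℤ) = (c : ℤ) + d - e := by omega
  zify at hx hW ⊢
  rw [h2] at hx
  rw [h3] at hW
  rw [h1]
  nlinarith [mul_nonneg (Nat.cast_nonneg (α := ℤ) e) (show (0 : ℤ) ≤ (c : ℤ) - w by omega),
    mul_nonneg (Nat.cast_nonneg (α := ℤ) d) (Nat.cast_nonneg (α := ℤ) w)]

/-- The bound, a part being long. -/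
theorem bound_long {p₁ p₂ p : ℕ} {β e w W βi : ℕ} (hle : p₁ ≤ p₂) (hp : p₂ ≤ p)
    (he : β = βi + e) (hw : p₁ ≤ βi + w) (hβi : 1 ≤ βi ∨ β = 0)
    (hW : (p - 1 - e) * w ≤ W) (hβ : β < p₁) : (p₁ - β) * (p₂ - 1) ≤ W := by
  subst he
  obtain ⟨X, rfl⟩ : ∃ X, p₁ = βi + e + X := ⟨p₁ - (βi + e), by omega⟩
  rw [Nat.add_sub_cancel_left]
  obtain ⟨d, rfl⟩ : ∃ d, p = p₂ + d := ⟨p - p₂, by omega⟩
  obtain ⟨u, rfl⟩ : ∃ u, w = X + e + u := ⟨w - (X + e), by omega⟩
  refine le_trans ?_ hW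
  rcases Nat.eq_zero_or_pos e with rfl | he0
  · exact le_trans (le_of_eq (mul_comm _ _)) (Nat.mul_le_mul (by omega) (by omega))
  · obtain ⟨g, hg⟩ : ∃ g, p₂ + d - 1 - e = X + g := ⟨p₂ + d - 1 - e - X, by omega⟩
    rw [hg]
    obtain ⟨g', hg'⟩ : ∃ g', p₂ - 1 + g' = X + g + e := ⟨X + g + e - (p₂ - 1), by omega⟩
    nlinarith [Nat.zero_le (g * e), Nat.zero_le ((X + g) * u), Nat.zero_le (X * g')]

/-- **The comparison.** -/
theorem card_compare {p₁ p₂ : ℕ} (hle : p₁ ≤ p₂) :
    ∀ n : ℕ, 0 < n → (∀ q : ℕ, q.Prime → q ∣ n → p₁ ≤ q ∧ (q = p₁ ∨ p₂ ≤ q)) →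
      ∀ A B : Multiset ℂ, IsRoots n A → IsRoots n B → A.sum = B.sum → Multiset.card B < p₁ →
        (∃ s ∈ primeComb n, Multiset.card A = Multiset.card B + s) ∨
          (p₁ - Multiset.card B) * (p₂ - 1) ≤ Multiset.card A := by
  intro n
  induction n using Nat.strong_induction_on with
  | _ n ih =>
  intro hn hpr A B hA hB hAB hβ
  rcases eq_or_ne n 1 with rfl | hn1
  · refine Or.inl ⟨0, zero_mem _, ?_⟩
    have : ∀ {C : Multiset ℂ}, IsRoots 1 C → C.sum = (Multiset.card C : ℂ) := fun {C} hC => by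
      rw [Multiset.eq_replicate_card.2
        (show ∀ z ∈ C, z = (1 : ℂ) from fun z hz => by simpa using hC z hz)]
      simp
    rw [this hA, this hB] at hAB
    exact_mod_cast hAB
  -- the prime to split at
  obtain ⟨p, hp, hpn, hp₂⟩ : ∃ p : ℕ, p.Prime ∧ p ∣ n ∧
      (p₂ ≤ p ∨ ∀ q : ℕ, q.Prime → q ∣ n → q = p) := by
    by_cases h : ∃ q : ℕ, q.Prime ∧ q ∣ n ∧ q ≠ p₁
    · obtain ⟨q, hq, hqn, hne⟩ := h
      exact ⟨q, hq, hqn, Or.inl ((hpr q hq hqn).2.resolve_left hne)⟩
    · obtain ⟨q, hq, hqn⟩ := Nat.exists_prime_and_dvd hn1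
      push Not at h
      exact ⟨q, hq, hqn, Or.inr fun r hr hrn => (h r hr hrn).trans (h q hq hqn).symm⟩
  obtain ⟨m, rfl⟩ := hpn
  have hm : 0 < m := Nat.pos_of_mul_pos_left hn
  obtain ⟨C⟩ := exists_cut hm hp
  obtain ⟨P, hP, rfl⟩ := C.exists_parts hA
  obtain ⟨Q, hQ, rfl⟩ := C.exists_parts hB
  obtain ⟨hsame, hconst⟩ := C.parts_diff hp rfl hm hP hQ hAB
  rw [card_glue, card_glue] at *
  set β := ∑ j, Multiset.card (Q j) with hβdef
  have hsub : ∀ {s}, s ∈ primeComb m → s ∈ primeComb (p * m) :=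
    fun hs => primeComb_mono hn.ne' (dvd_mul_left m p) hs
  have hih := ih m (lt_mul_of_one_lt_left hm hp.one_lt) hm
    (fun q hq hqm => hpr q hq (hqm.mul_left p))
  have hQle : ∀ i, Multiset.card (Q i) ≤ β :=
    fun i => single_le_sum (f := fun j => Multiset.card (Q j)) (fun j _ => Nat.zero_le _)
      (mem_univ i)
  by_cases hpm : p ∣ m
  · have hall := fun j => hih (P j) (Q j) (hP j) (hQ j) (hsame hpm j)
      (lt_of_le_of_lt (hQle j) hβ)
    by_cases hsmall : ∀ j, ∃ s ∈ primeComb m, Multiset.card (P j) = Multiset.card (Q j) + s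
    · choose s hs hcard using hsmall
      exact Or.inl ⟨∑ j, s j, sum_mem fun j _ => hsub (hs j), by
        simp only [hcard, sum_add_distrib, ← hβdef]⟩
    · push Not at hsmall
      obtain ⟨j, hj⟩ := hsmall
      refine Or.inr (le_trans ?_ (single_le_sum (f := fun j => Multiset.card (P j))
        (fun i _ => Nat.zero_le _) (mem_univ j)))
      refine le_trans (Nat.mul_le_mul_right _ ?_)
        ((hall j).resolve_left fun ⟨s, hs, e⟩ => hj s hs e)
      have := hQle j
      omega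
  -- the parts outside the support of `B`
  have hp₁ : p₁ ≤ p := (hpr p hp (dvd_mul_right p m)).1
  set Z : Finset (Fin p) := univ.filter fun j => Multiset.card (Q j) = 0 with hZdef
  have hcount : ∀ i, p - 1 - (β - Multiset.card (Q i)) ≤ (Z.erase i).card := fun i => by
    have h1 : ((univ.erase i).filter fun j => ¬ Multiset.card (Q j) = 0).card ≤
        β - Multiset.card (Q i) := by
      rw [hβdef, ← add_sum_erase _ _ (mem_univ i), Nat.add_sub_cancel_left, card_eq_sum_ones]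
      exact le_trans (sum_le_sum fun j hj => Nat.pos_of_ne_zero (mem_filter.1 hj).2)
        (sum_le_sum_of_subset (filter_subset _ _))
    have h2 := card_filter_add_card_filter_not (s := (univ : Finset (Fin p)).erase i)
      (p := fun j => Multiset.card (Q j) = 0)
    rw [card_erase_of_mem (mem_univ i), card_univ, Fintype.card_fin] at h2
    rw [hZdef, ← filter_erase]
    omega
  have hZne : Z.Nonempty := by
    by_contra h0
    rw [not_nonempty_iff_eq_empty, hZdef, filter_eq_empty_iff] at h0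
    have : p ≤ β := by
      rw [hβdef]
      calc p = ∑ _j : Fin p, 1 := by simp
        _ ≤ _ := sum_le_sum fun j _ => Nat.pos_of_ne_zero (h0 (mem_univ j))
    omega
  obtain ⟨j₀, hj₀, hmin⟩ := Z.exists_min_image (fun j => Multiset.card (P j)) hZne
  set w := Multiset.card (P j₀) with hwdef
  have hQ0 : Q j₀ = 0 := Multiset.card_eq_zero.1 (mem_filter.1 hj₀).2
  have hshift : ∀ i, (P i).sum = (Q i + P j₀).sum := fun i => by
    have := hconst i j₀
    rw [hQ0, Multiset.sum_zero, sub_zero] at this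
    rw [Multiset.sum_add, ← this]
    ring
  have hrest : ∀ i, Multiset.card (P i) + (p - 1 - (β - Multiset.card (Q i))) * w ≤
      ∑ j, Multiset.card (P j) := fun i => by
    rw [← add_sum_erase _ _ (mem_univ i)]
    refine Nat.add_le_add_left (le_trans (Nat.mul_le_mul_right w (hcount i)) ?_) _
    refine le_trans ?_ (sum_le_sum_of_subset (erase_subset_erase i (subset_univ Z)))
    rw [← smul_eq_mul]
    exact card_nsmul_le_sum _ _ _ fun j hj => hmin j (mem_of_mem_erase hj)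
  have hpc : p * w ∈ primeComb (p * m) := prime_mem_primeComb hp hn.ne' (dvd_mul_right p m) w
  rcases hp₂ with hp₂ | honly
  swap
  · -- a single prime, so `m = 1`
    obtain rfl : m = 1 := by
      by_contra h1
      obtain ⟨q, hq, hqm⟩ := Nat.exists_prime_and_dvd h1
      exact hpm (honly q hq (hqm.mul_left p) ▸ hqm)
    refine Or.inl ⟨p * w, hpc, ?_⟩
    have key : ∀ i, Multiset.card (P i) = Multiset.card (Q i) + w := fun i => by
      have h := hshift i
      rw [Multiset.eq_replicate_card.2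
          (show ∀ z ∈ P i, z = (1 : ℂ) from fun z hz => by simpa using hP i z hz),
        Multiset.eq_replicate_card.2 (show ∀ z ∈ Q i + P j₀, z = (1 : ℂ) from
          fun z hz => by simpa using (hQ i).add (hP j₀) z hz)] at h
      simpa [hwdef, ← Nat.cast_add] using h
    simp [key, sum_add_distrib, ← hβdef]
  by_cases hlong : ∃ i, p₁ ≤ Multiset.card (Q i) + w
  · obtain ⟨i, hi, hi'⟩ : ∃ i, p₁ ≤ Multiset.card (Q i) + w ∧
        (1 ≤ Multiset.card (Q i) ∨ β = 0) := by
      obtain ⟨i, hi⟩ := hlong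
      by_cases hβ0 : β = 0
      · exact ⟨i, hi, Or.inr hβ0⟩
      · obtain ⟨i', -, hi'⟩ := exists_ne_zero_of_sum_ne_zero hβ0
        rcases Nat.eq_zero_or_pos (Multiset.card (Q i)) with h0 | h0
        · exact ⟨i', by omega, Or.inl (Nat.pos_of_ne_zero hi')⟩
        · exact ⟨i, hi, Or.inl h0⟩
    exact Or.inr (bound_long hle hp₂ (e := β - Multiset.card (Q i))
      (by have := hQle i; omega) hi hi' ((Nat.le_add_left _ _).trans (hrest i)) hβ)
  push Not at hlong
  have hall := fun i => hih (P i) (Q i + P j₀) (hP i) ((hQ i).add (hP j₀)) (hshift i)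
    (by rw [Multiset.card_add]; exact hlong i)
  simp only [Multiset.card_add, ← hwdef] at hall
  by_cases hsmall : ∀ i, ∃ s ∈ primeComb m,
      Multiset.card (P i) = Multiset.card (Q i) + w + s
  · choose s hs hcard using hsmall
    refine Or.inl ⟨p * w + ∑ i, s i, add_mem hpc (sum_mem fun i _ => hsub (hs i)), ?_⟩
    simp [hcard, sum_add_distrib, ← hβdef, add_assoc]
  · push Not at hsmall
    obtain ⟨i, hi⟩ := hsmall
    exact Or.inr (bound_short hle hp₂ (e := β - Multiset.card (Q i))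
      (by have := hQle i; omega) (hlong i)
      ((hall i).resolve_left fun ⟨s, hs, e⟩ => hi s hs e) (hrest i) hβ)

/-- Enough terms. -/
theorem mem_primeComb_of_le {n p q w : ℕ} (hp : p.Prime) (hq : q.Prime) (hne : p ≠ q) (hn : n ≠ 0)
    (hpn : p ∣ n) (hqn : q ∣ n) (hw : (p - 1) * (q - 1) ≤ w) : w ∈ primeComb n := by
  have h := (frobeniusNumber_iff.1 (frobeniusNumber_pair ((Nat.coprime_primes hp hq).2 hne)
    hp.one_lt hq.one_lt)).2 w ?_
  · refine AddSubmonoid.closure_mono ?_ h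
    rintro r (rfl | rfl) <;> simp only [mem_coe, Nat.mem_primeFactors]
    · exact ⟨hp, hpn, hn⟩
    · exact ⟨hq, hqn, hn⟩
  · obtain ⟨a, rfl⟩ : ∃ a, p = a + 2 := ⟨p - 2, by have := hp.two_le; omega⟩
    obtain ⟨b, rfl⟩ : ∃ b, q = b + 2 := ⟨q - 2, by have := hq.two_le; omega⟩
    simp only [show a + 2 - 1 = a + 1 by omega, show b + 2 - 1 = b + 1 by omega] at hw
    have e : (a + 2) * (b + 2) = (a + 1) * (b + 1) + a + b + 3 := by ring
    rw [gt_iff_lt, e]
    have ht : 0 < (a + 1) * (b + 1) := by positivity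
    generalize (a + 1) * (b + 1) = t at hw ht ⊢
    omega

/-- **The theorem of Lam and Leung.** -/
theorem lengths_iff {n : ℕ} (hn : 0 < n) (w : ℕ) :
    (∃ A : Multiset ℂ, IsRoots n A ∧ A.sum = 0 ∧ Multiset.card A = w) ↔ w ∈ primeComb n := by
  constructor
  · rintro ⟨A, hA, h0, rfl⟩
    set w := Multiset.card A with hw
    set p₁ := n.minFac with hp₁
    have hp₁le : ∀ q : ℕ, q.Prime → q ∣ n → p₁ ≤ q :=
      fun q hq hqn => Nat.minFac_le_of_dvd hq.two_le hqn
    have hp₁0 : 0 < p₁ := Nat.minFac_pos n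
    by_cases h : ∃ q : ℕ, q.Prime ∧ q ∣ n ∧ q ≠ p₁
    · classical
      obtain ⟨hp₂, hp₂n, hne⟩ := Nat.find_spec h
      set p₂ := Nat.find h
      have hn1 : n ≠ 1 := fun e => hp₂.not_dvd_one (e ▸ hp₂n)
      rcases card_compare (hp₁le p₂ hp₂ hp₂n) n hn
        (fun q hq hqn => ⟨hp₁le q hq hqn, (eq_or_ne q p₁).imp id fun hq' =>
          Nat.find_min' h ⟨hq, hqn, hq'⟩⟩) A 0 hA (fun z hz => absurd hz (Multiset.notMem_zero z))
        (by simp [h0]) (by simpa using hp₁0) with ⟨s, hs, e⟩ | hbig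
      · simp only [Multiset.card_zero, zero_add] at e
        rwa [hw, e]
      · simp only [Multiset.card_zero, tsub_zero] at hbig
        exact mem_primeComb_of_le (Nat.minFac_prime hn1) hp₂ (Ne.symm hne) hn.ne'
          (Nat.minFac_dvd n) hp₂n (le_trans (Nat.mul_le_mul_right _ (Nat.sub_le _ _)) hbig)
    · push Not at h
      rcases card_compare (p₂ := p₁ + w + 2) (by omega) n hn
        (fun q hq hqn => ⟨hp₁le q hq hqn, Or.inl (h q hq hqn)⟩) A 0 hA
        (fun z hz => absurd hz (Multiset.notMem_zero z)) (by simp [h0])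
        (by simpa using hp₁0) with ⟨s, hs, e⟩ | hbig
      · simp only [Multiset.card_zero, zero_add] at e
        rwa [hw, e]
      · simp only [Multiset.card_zero, tsub_zero] at hbig
        have : 1 * (p₁ + w + 2 - 1) ≤ p₁ * (p₁ + w + 2 - 1) := Nat.mul_le_mul_right _ hp₁0
        omega
  · intro hw
    refine AddSubmonoid.closure_induction (motive := fun w _ =>
      ∃ A : Multiset ℂ, IsRoots n A ∧ A.sum = 0 ∧ Multiset.card A = w) (fun p hp => ?_)
      ⟨0, fun z hz => absurd hz (Multiset.notMem_zero z), rfl, rfl⟩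
      (fun a b _ _ ⟨A, hA, hA0, ha⟩ ⟨B, hB, hB0, hb⟩ =>
        ⟨A + B, hA.add hB, by simp [hA0, hB0], by simp [ha, hb]⟩) hw
    obtain ⟨hpp, hpn, -⟩ := Nat.mem_primeFactors.1 (mem_coe.1 hp)
    have hζ := Complex.isPrimitiveRoot_exp p hpp.ne_zero
    refine ⟨Polynomial.nthRoots p (1 : ℂ), fun z hz => ?_, ?_, hζ.card_nthRoots_one⟩
    · obtain ⟨k, rfl⟩ := hpn
      rw [pow_mul, (Polynomial.mem_nthRoots hpp.pos).1 hz, one_pow]
    · rw [hζ.nthRoots_eq (one_pow p)]
      simp only [mul_one, ← Finset.range_val]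
      exact hζ.geom_sum_eq_zero hpp.one_lt

end FA.VanishingSums

end
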