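import Mathlib.Analysis.Complex.Basic
import Mathlib.FieldTheory.IntermediateField.Adjoin.Basic
import Mathlib.RingTheory.PowerBasis
import Mathlib.RingTheory.Polynomial.Cyclotomic.Roots
import Mathlib.RingTheory.RootsOfUnity.Complex
import Mathlib.Tactic

/-!
# Splitting a sum of roots of unity at a prime

For a prime `p` and `n = p m` a sum of `n`-th roots of unity is `∑ ω ^ j A j` with sums `A j` of
`m`-th roots; equal sums have equal parts if `p ∣ m`, and parts differing by a constant otherwise.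
-/

set_option autoImplicit false

noncomputable section

open Finset IntermediateField

namespace FA.VanishingSums

/-- All entries are `n`-th roots of unity. -/
def IsRoots (n : ℕ) (A : Multiset ℂ) : Prop := ∀ z ∈ A, z ^ n = 1

theorem IsRoots.add {n : ℕ} {A B : Multiset ℂ} (hA : IsRoots n A) (hB : IsRoots n B) :
    IsRoots n (A + B) := fun z hz => (Multiset.mem_add.1 hz).elim (hA z) (hB z)

theorem IsRoots.sum_mem {m : ℕ} [NeZero m] {ξ : ℂ} (hξ : IsPrimitiveRoot ξ m) {A : Multiset ℂ}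
    (hA : IsRoots m A) : A.sum ∈ ℚ⟮ξ⟯ := by
  refine multiset_sum_mem A fun z hz => ?_
  obtain ⟨i, -, rfl⟩ := hξ.eq_pow_of_pow_eq_one (hA z hz)
  exact pow_mem (mem_adjoin_simple_self ℚ ξ) i

theorem finrank_root {n : ℕ} (hn : 0 < n) {ζ : ℂ} (hζ : IsPrimitiveRoot ζ n) :
    Module.finrank ℚ ℚ⟮ζ⟯ = n.totient := by
  rw [adjoin.finrank ((hζ.isIntegral hn).tower_top),
    ← Polynomial.cyclotomic_eq_minpoly_rat hζ hn, Polynomial.natDegree_cyclotomic]

/-- The degree over the smaller field. -/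
theorem totient_le {n m : ℕ} (hn : 0 < n) (hm : 0 < m) {ζ ξ ω : ℂ} (hζ : IsPrimitiveRoot ζ n)
    (hξ : IsPrimitiveRoot ξ m) (hω : ω ^ n = 1) (hgen : ∃ i j : ℕ, ζ = ω ^ j * ξ ^ i) :
    n.totient ≤ m.totient * (minpoly ℚ⟮ξ⟯ ω).natDegree := by
  have hωint : IsIntegral ℚ⟮ξ⟯ ω :=
    IsIntegral.of_pow hn (by rw [hω]; exact isIntegral_one)
  have : FiniteDimensional ℚ ℚ⟮ξ⟯ := adjoin.finiteDimensional ((hξ.isIntegral hm).tower_top)
  have : FiniteDimensional ℚ⟮ξ⟯ (↥ℚ⟮ξ⟯)⟮ω⟯ := adjoin.finiteDimensional hωint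
  have hfin : FiniteDimensional ℚ (↥ℚ⟮ξ⟯)⟮ω⟯ := Module.Finite.trans ℚ⟮ξ⟯ _
  set E := ((↥ℚ⟮ξ⟯)⟮ω⟯).restrictScalars ℚ with hE
  have hEfin : FiniteDimensional ℚ E := hfin
  have hle : ℚ⟮ζ⟯ ≤ E := by
    rw [adjoin_simple_le_iff]
    obtain ⟨i, j, e⟩ := hgen
    rw [e, hE, mem_restrictScalars]
    exact mul_mem (pow_mem (mem_adjoin_simple_self _ ω) j)
      ((↥ℚ⟮ξ⟯)⟮ω⟯.algebraMap_mem ⟨ξ ^ i, pow_mem (mem_adjoin_simple_self ℚ ξ) i⟩)
  calc n.totient = Module.finrank ℚ ℚ⟮ζ⟯ := (finrank_root hn hζ).symm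
    _ ≤ Module.finrank ℚ E := finrank_le_of_le_right hle
    _ = Module.finrank ℚ ℚ⟮ξ⟯ * Module.finrank ℚ⟮ξ⟯ (↥ℚ⟮ξ⟯)⟮ω⟯ :=
      (Module.finrank_mul_finrank ℚ ℚ⟮ξ⟯ (↥ℚ⟮ξ⟯)⟮ω⟯).symm
    _ = _ := by rw [adjoin.finrank hωint, finrank_root hm hξ]

/-- Independence of small powers. -/
theorem coeff_eq_zero {F : IntermediateField ℚ ℂ} {ω : ℂ} {d : ℕ}
    (hd : d ≤ (minpoly F ω).natDegree) (c : Fin d → ℂ) (hc : ∀ j, c j ∈ F)
    (h : ∑ j, c j * ω ^ (j : ℕ) = 0) (j : Fin d) : c j = 0 := by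
  have hli := (linearIndependent_pow (K := F) ω).comp _ (Fin.castLE_injective hd)
  have := Fintype.linearIndependent_iff.1 hli (fun j => ⟨c j, hc j⟩) (by
    rw [← h]
    exact Fintype.sum_congr _ _ fun j => rfl) j
  exact congrArg Subtype.val this

/-- A multiset in terms of its parts. -/
def glue {p : ℕ} (ω : ℂ) (A : Fin p → Multiset ℂ) : Multiset ℂ :=
  ∑ j, (A j).map (ω ^ (j : ℕ) * ·)

theorem card_glue {p : ℕ} (ω : ℂ) (A : Fin p → Multiset ℂ) :
    Multiset.card (glue ω A) = ∑ j, Multiset.card (A j) := by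
  simp [glue, Multiset.card_sum]

theorem sum_glue {p : ℕ} (ω : ℂ) (A : Fin p → Multiset ℂ) :
    (glue ω A).sum = ∑ j, (A j).sum * ω ^ (j : ℕ) := by
  rw [glue, Multiset.sum_sum]
  exact Fintype.sum_congr _ _ fun j => by
    rw [Multiset.sum_map_mul_left, Multiset.map_id', mul_comm]

/-- What splitting at `p` uses. -/
structure Cut (n m p : ℕ) where
  /-- the powers separating the parts -/
  ω : ℂ
  root : ω ^ n = 1
  split : ∀ z : ℂ, z ^ n = 1 → ∃ (j : Fin p) (y : ℂ), y ^ m = 1 ∧ z = ω ^ (j : ℕ) * y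
  geom : ¬ p ∣ m → ∑ j : Fin p, ω ^ (j : ℕ) = 0
  full : ¬ p ∣ m → Polynomial.nthRoots p (1 : ℂ) =
    Multiset.map (fun j : Fin p => ω ^ (j : ℕ)) univ.val

/-- Every cut exists. -/
theorem exists_cut {m p : ℕ} (hm : 0 < m) (hp : p.Prime) : Nonempty (Cut (p * m) m p) := by
  have hn : p * m ≠ 0 := (Nat.mul_pos hp.pos hm).ne'
  have : NeZero (p * m) := ⟨hn⟩
  set ζ := Complex.exp (2 * Real.pi * Complex.I / (p * m : ℕ))
  have hζ : IsPrimitiveRoot ζ (p * m) := Complex.isPrimitiveRoot_exp _ hn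
  by_cases hpm : p ∣ m
  · refine ⟨⟨ζ, hζ.pow_eq_one, fun z hz => ?_, fun h => absurd hpm h, fun h => absurd hpm h⟩⟩
    obtain ⟨i, -, rfl⟩ := hζ.eq_pow_of_pow_eq_one hz
    refine ⟨⟨i % p, Nat.mod_lt i hp.pos⟩, (ζ ^ p) ^ (i / p), ?_, ?_⟩
    · rw [← pow_mul, ← pow_mul, hζ.pow_eq_one_iff_dvd]
      exact ⟨i / p, by ring⟩
    · rw [← pow_mul, ← pow_add, Nat.mod_add_div]
  · have hω : IsPrimitiveRoot (ζ ^ m) p := hζ.pow hn.bot_lt (mul_comm p m)
    refine ⟨⟨ζ ^ m, by rw [← pow_mul, hζ.pow_eq_one_iff_dvd]; exact ⟨m, by ring⟩,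
      fun z hz => ?_, fun _ => ?_, fun _ => ?_⟩⟩
    · obtain ⟨i, -, rfl⟩ := hζ.eq_pow_of_pow_eq_one hz
      have hco : Nat.gcd m p = 1 := ((Nat.Prime.coprime_iff_not_dvd hp).2 hpm).symm
      obtain ⟨u, hu⟩ : ∃ u, m * u ≡ 1 [MOD p] := by
        obtain ⟨u, -, hu⟩ := Nat.exists_mul_mod_eq_one_of_coprime hco hp.one_lt
        exact ⟨u, by rw [Nat.ModEq, hu, Nat.mod_eq_of_lt hp.one_lt]⟩
      set j := i * u % p with hj
      have hji : m * j ≡ i [MOD p] :=
        calc m * j ≡ m * (i * u) [MOD p] := (Nat.mod_modEq _ _).mul_left _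
          _ = i * (m * u) := by ring
          _ ≡ i * 1 [MOD p] := hu.mul_left _
          _ = i := mul_one i
      have hζ0 : ζ ≠ 0 := hζ.ne_zero hn
      refine ⟨⟨j, Nat.mod_lt _ hp.pos⟩, ζ ^ i * (ζ ^ (m * j))⁻¹, ?_, ?_⟩
      · rw [mul_pow, inv_pow, ← pow_mul, ← pow_mul, mul_inv_eq_one₀ (pow_ne_zero _ hζ0),
          (isOfFinOrder_iff_pow_eq_one.2 ⟨p * m, hn.bot_lt, hζ.pow_eq_one⟩).pow_eq_pow_iff_modEq,
          ← hζ.eq_orderOf]
        exact hji.symm.mul_right' m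
      · rw [← pow_mul]
        field_simp
    · rw [Fin.sum_univ_eq_sum_range fun j => (ζ ^ m) ^ j]
      exact hω.geom_sum_eq_zero hp.one_lt
    · rw [hω.nthRoots_eq (one_pow p)]
      simp only [mul_one, Fin.univ_val_map, List.ofFn_eq_map, ← List.map_coe_finRange_eq_range,
        Multiset.range, Multiset.map_coe, List.map_map]
      rfl

variable {n m p : ℕ}

/-- Parts. -/
theorem Cut.exists_parts (C : Cut n m p) {A : Multiset ℂ} (hA : IsRoots n A) :
    ∃ P : Fin p → Multiset ℂ, (∀ j, IsRoots m (P j)) ∧ A = glue C.ω P := by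
  classical
  induction A using Multiset.induction_on with
  | empty => exact ⟨fun _ => 0, fun j z hz => absurd hz (Multiset.notMem_zero z), by simp [glue]⟩
  | cons z A ih =>
    obtain ⟨P, hP, rfl⟩ := ih fun w hw => hA w (Multiset.mem_cons_of_mem hw)
    obtain ⟨j, y, hy, rfl⟩ := C.split z (hA z (Multiset.mem_cons_self _ _))
    refine ⟨fun i => if i = j then y ::ₘ P i else P i, fun i w hw => ?_, ?_⟩
    · dsimp only at hw
      split_ifs at hw with h
      · rcases Multiset.mem_cons.1 hw with rfl | h'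
        · exact hy
        · exact hP i w h'
      · exact hP i w hw
    · simp only [glue, apply_ite (Multiset.map _), Multiset.map_cons]
      rw [← Finset.add_sum_erase _ _ (mem_univ j), ← Finset.add_sum_erase (f := fun i =>
        if i = j then _ else _) _ (mem_univ j), if_pos rfl, Multiset.cons_add]
      congr 2
      exact sum_congr rfl fun i hi => (if_neg (ne_of_mem_erase hi)).symm

/-- **Equal sums have parts differing by a constant**, none if `p ∣ m`. -/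
theorem Cut.parts_diff (C : Cut n m p) (hp : p.Prime) (hn : n = p * m) (hm : 0 < m)
    {P Q : Fin p → Multiset ℂ} (hP : ∀ j, IsRoots m (P j)) (hQ : ∀ j, IsRoots m (Q j))
    (h : (glue C.ω P).sum = (glue C.ω Q).sum) :
    (p ∣ m → ∀ j, (P j).sum = (Q j).sum) ∧
      ∀ i j, (P i).sum - (Q i).sum = (P j).sum - (Q j).sum := by
  have hn0 : 0 < n := hn ▸ Nat.mul_pos hp.pos hm
  have : NeZero m := ⟨hm.ne'⟩
  set ξ := Complex.exp (2 * Real.pi * Complex.I / m)
  have hξ : IsPrimitiveRoot ξ m := Complex.isPrimitiveRoot_exp _ hm.ne'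
  set ζ := Complex.exp (2 * Real.pi * Complex.I / n)
  have hζ : IsPrimitiveRoot ζ n := Complex.isPrimitiveRoot_exp _ hn0.ne'
  have hdeg := totient_le hn0 hm hζ hξ C.root (by
    obtain ⟨j, y, hy, e⟩ := C.split ζ hζ.pow_eq_one
    obtain ⟨i, -, rfl⟩ := hξ.eq_pow_of_pow_eq_one hy
    exact ⟨i, j, e⟩)
  set D := (minpoly ℚ⟮ξ⟯ C.ω).natDegree with hD
  set c : Fin p → ℂ := fun j => (P j).sum - (Q j).sum with hc
  have hcF : ∀ j, c j ∈ ℚ⟮ξ⟯ := fun j => sub_mem ((hP j).sum_mem hξ) ((hQ j).sum_mem hξ)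
  have hsum : ∑ j, c j * C.ω ^ (j : ℕ) = 0 := by
    rw [sum_glue, sum_glue] at h
    simp only [hc, sub_mul, sum_sub_distrib, h, sub_self]
  have hm0 := Nat.totient_pos.2 hm
  by_cases hpm : p ∣ m
  · rw [hn, Nat.totient_mul_of_prime_of_dvd hp hpm, mul_comm] at hdeg
    have hz := coeff_eq_zero (Nat.le_of_mul_le_mul_left hdeg hm0) c hcF hsum
    exact ⟨fun _ j => sub_eq_zero.1 (hz j), fun i j => (hz i).trans (hz j).symm⟩
  · refine ⟨fun h' => absurd h' hpm, ?_⟩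
    obtain ⟨q, rfl⟩ : ∃ q, p = q + 1 := ⟨p - 1, by have := hp.pos; omega⟩
    rw [hn, Nat.totient_mul ((Nat.Prime.coprime_iff_not_dvd hp).2 hpm), Nat.totient_prime hp,
      Nat.add_sub_cancel, mul_comm] at hdeg
    suffices key : ∀ i, c i = c (Fin.last q) from fun i j => (key i).trans (key j).symm
    refine Fin.lastCases rfl fun i => ?_
    refine sub_eq_zero.1 (coeff_eq_zero (Nat.le_of_mul_le_mul_left hdeg hm0)
      (fun i => c i.castSucc - c (Fin.last q)) (fun i => sub_mem (hcF _) (hcF _)) ?_ i)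
    have hg := C.geom hpm
    rw [Fin.sum_univ_castSucc] at hg hsum
    simp only [sub_mul, sum_sub_distrib, ← mul_sum, Fin.val_castSucc, Fin.val_last] at hg hsum ⊢
    linear_combination hsum - c (Fin.last q) * hg

end FA.VanishingSums

end
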